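import Fermat.Agent.RR.API
import Fermat.Prelude.Def_AlgebraicCurve_Correspondence

/-!
Auxiliary facts on function fields: functions with a single pole, functions finite at one place
with prescribed poles, simultaneous approximation at finitely many places.
-/

set_option autoImplicit false

noncomputable section

open AlgebraicCurve Polynomial

namespace FLTAgent.HeckeJ

variable {K F : Type*} [Field K] [Field F] [Algebra K F] [IsAlgClosed K] [CharZero K]
  [RR.FnField K F]

/-- a function whose only pole is at `v` -/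
theorem exists_only_pole (v : Place K F) :
    ∃ f : F, Transcendental K f ∧ v.ord f < 0 ∧ ∀ w : Place K F, w ≠ v → 0 ≤ w.ord f := by
  classical
  obtain ⟨x, hx, -⟩ := RR.FnField.exists_transcendental (K := K) (F := F)
  set D : Divisor K F := Finsupp.single v ((RR.genusX hx : ℤ) + 1) with hD
  have h := RR.rr hx D
  rw [hD, Divisor.degree_single, RR.deg_eq_one] at h
  push_cast at h
  have h2 : 2 ≤ Module.finrank K (riemannRochSpace D) := by
    have : (RR.ell D : ℤ) ≥ 2 := by rw [hD]; omega
    exact_mod_cast this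
  have hne : ¬ riemannRochSpace D ≤ (K ∙ (1 : F)) := by
    intro hle
    have h1 := Submodule.finrank_mono hle
    rw [finrank_span_singleton (one_ne_zero (α := F))] at h1
    omega
  obtain ⟨f, hf, hf1⟩ := SetLike.not_le_iff_exists.mp hne
  have hfT : Transcendental K f := by
    rcases RR.exists_const_or_transcendental (K := K) f with ⟨a, rfl⟩ | h
    · exact absurd (Submodule.mem_span_singleton.mpr ⟨a, (Algebra.algebraMap_eq_smul_one a).symm⟩) hf1
    · exact h
  have hf0 : f ≠ 0 := RR.ne_zero_of_transcendental hfT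
  rw [RR.riemannRochSpace_eq_boundedOn] at hf
  have hb : ∀ w : Place K F, RR.Bd w f (D w) := fun w => RR.mem_boundedOn.mp hf w trivial
  have hout : ∀ w : Place K F, w ≠ v → 0 ≤ w.ord f := fun w hw => by
    have := (RR.bd_iff_ord hf0).mp (hb w)
    rw [hD, Finsupp.single_eq_of_ne hw] at this
    simpa using this
  refine ⟨f, hfT, ?_, hout⟩
  obtain ⟨w, hw⟩ := RR.exists_zero (RR.transcendental_inv hfT)
  rw [w.ord_inv] at hw
  rcases eq_or_ne w v with rfl | hwv
  · omega
  · have := hout w hwv
    omega

/-- a coordinate finite at `v` and with poles at all places of `P` -/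
theorem exists_coord (v : Place K F) (P : Finset (Place K F)) (hv : v ∉ P) :
    ∃ x : F, Transcendental K x ∧ RR.Bd v x 0 ∧ ∀ u ∈ P, ¬ RR.Bd u x 0 := by
  classical
  rcases P.eq_empty_or_nonempty with rfl | ⟨u₀, hu₀⟩
  · obtain ⟨z, hz, hzv⟩ := RR.exists_chart v
    exact ⟨z, hz, hzv, by simp⟩
  choose f hfT hfneg hfout using fun u : Place K F => exists_only_pole u
  have hbd : ∀ (w : Place K F) (s : Finset (Place K F)), w ∉ s →
      RR.Bd w (∑ u ∈ s, f u) 0 := fun w s hw => RR.Bd.sum s f fun u hu => by
    rw [RR.bd_iff]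
    refine Or.inr ?_
    have := hfout u w fun e => hw (e ▸ hu)
    omega
  have hnb : ∀ u ∈ P, ¬ RR.Bd u (∑ u ∈ P, f u) 0 := by
    intro u hu h
    have h2 := h.sub (hbd u (P.erase u) (Finset.notMem_erase u P))
    rw [← Finset.add_sum_erase P f hu, add_sub_cancel_right,
      RR.bd_iff_ord (RR.ne_zero_of_transcendental (hfT u))] at h2
    have := hfneg u
    omega
  refine ⟨∑ u ∈ P, f u, ?_, hbd v P hv, hnb⟩
  have h := hnb u₀ hu₀
  rw [RR.not_bd_iff] at h
  exact RR.transcendental_of_ord_ne_zero (v := u₀) (by omega)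

/-- an element of order one at `w` and order zero at the other places of a finite set -/
theorem exists_unif {x : F} (hx : Transcendental K x) (S : Finset (Place K F))
    (hS : ∀ u ∈ S, RR.Bd u x 0) (w : Place K F) :
    ∃ π : F, π ≠ 0 ∧ ∀ u ∈ S, (u = w → u.ord π = 1) ∧ (u ≠ w → u.ord π = 0) := by
  classical
  rcases S.eq_empty_or_nonempty with rfl | hne
  · exact ⟨1, one_ne_zero, by simp⟩
  let E : Divisor K F := Finsupp.indicator S fun _ _ => -2
  have hE : ∀ u ∈ S, E u = -2 := fun u hu => Finsupp.indicator_of_mem hu _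
  choose g hg0 hg1 hg2 using fun u : S =>
    RR.exists_ord_eq hx (hS u u.2) E (if (u : Place K F) = w then 1 else 0)
  have key : ∀ u : S, (∑ t ∈ S.attach, g t) ≠ 0 ∧
      (u : Place K F).ord (∑ t ∈ S.attach, g t) = if (u : Place K F) = w then 1 else 0 := by
    intro u
    have hr : RR.Bd (u : Place K F) (∑ t ∈ S.attach.erase u, g t) (-2) :=
      RR.Bd.sum _ _ fun t ht => by
        have hne' : (u : Place K F) ≠ (t : Place K F) := fun e =>
          (Finset.mem_erase.mp ht).1 (Subtype.ext e.symm)
        have := hg2 t u (hS u u.2) hne'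
        rwa [hE u u.2] at this
    rw [← Finset.add_sum_erase S.attach g (Finset.mem_attach S u), ← hg1 u]
    refine RR.ord_add_eq _ (hg0 u) ?_
    rw [RR.bd_iff] at hr
    rcases hr with hr | hr
    · exact Or.inl hr
    · refine Or.inr ?_
      rw [hg1 u]
      split_ifs <;> omega
  obtain ⟨u₀, hu₀⟩ := hne
  refine ⟨∑ t ∈ S.attach, g t, (key ⟨u₀, hu₀⟩).1, fun u hu => ?_⟩
  have := (key ⟨u, hu⟩).2
  constructor <;> intro he <;> simp only at this
  · rwa [if_pos he] at this
  · rwa [if_neg he] at this

end FLTAgent.HeckeJ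

end
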