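import Fermat.Agent.HeckeJ.AlongAux

/-!
Any `K`-embedding of one-variable function fields (`K` algebraically closed of characteristic zero)
is finite, satisfies the fundamental identity and the pushforward norm formula.
-/

set_option autoImplicit false

noncomputable section

open AlgebraicCurve Polynomial

namespace FLTAgent.HeckeJ

section Ext

variable {K F F' : Type*} [Field K] [Field F] [Field F'] [Algebra K F] [Algebra K F']
  [Algebra F F'] [IsScalarTower K F F'] [IsAlgClosed K] [CharZero K]
  [RR.FnField K F] [RR.FnField K F']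

omit [IsAlgClosed K] [CharZero K] [RR.FnField K F] [RR.FnField K F'] in
theorem map_KK (x : F) :
    (RR.KK K x).map (IsScalarTower.toAlgHom K F F') = RR.KK K (algebraMap F F' x) := by
  rw [IntermediateField.adjoin_map, Set.image_singleton, IsScalarTower.coe_toAlgHom']

theorem finite_ext (K : Type*) {F F' : Type*} [Field K] [Field F] [Field F'] [Algebra K F]
    [Algebra K F'] [Algebra F F'] [IsScalarTower K F F'] [RR.FnField K F] [RR.FnField K F'] :
    Module.Finite F F' := by
  obtain ⟨x, hx, -⟩ := RR.FnField.exists_transcendental (K := K) (F := F)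
  have hy : Transcendental K (algebraMap F F' x) :=
    (transcendental_algebraMap_iff (algebraMap F F').injective).mpr hx
  haveI := RR.finiteDimensional_KK hy
  obtain ⟨s, hs⟩ := (inferInstance : Module.Finite (RR.KK K (algebraMap F F' x)) F').fg_top
  refine ⟨⟨s, top_unique fun z _ => ?_⟩⟩
  have hz : z ∈ Submodule.span (RR.KK K (algebraMap F F' x)) (s : Set F') := hs ▸ trivial
  induction hz using Submodule.span_induction with
  | mem y hy => exact Submodule.subset_span hy
  | zero => exact zero_mem _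
  | add a b _ _ ha hb => exact add_mem (ha trivial) (hb trivial)
  | smul c y _ ih =>
    have hc : (c : F') ∈ (RR.KK K x).map (IsScalarTower.toAlgHom K F F') := by
      rw [map_KK]; exact c.2
    obtain ⟨d, -, hd⟩ := hc
    show (c : F') * y ∈ _
    rw [← show algebraMap F F' d = (c : F') from hd, ← Algebra.smul_def]
    exact Submodule.smul_mem _ d (ih trivial)

omit [IsAlgClosed K] [CharZero K] [RR.FnField K F] [RR.FnField K F'] in
theorem ndeg_algebraMap (x : F) :
    RR.ndeg K (algebraMap F F' x) = RR.ndeg K x * Module.finrank F F' := by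
  rw [RR.ndeg, RR.ndeg, Module.finrank_mul_finrank]
  refine (Algebra.finrank_eq_of_equiv_equiv
    (((RR.KK K x).equivMap (IsScalarTower.toAlgHom K F F')).trans
      (IntermediateField.equivOfEq (map_KK x))).toRingEquiv (RingEquiv.refl F') ?_).symm
  ext c
  rfl

variable [FiniteDimensional F F'] [Algebra.IsIntegral F F'] [HasPrincipalDivisors K F']

/-- the ramification indices over a place add up to the degree -/
theorem sum_ramificationIndex (v : Place K F) :
    ∑ w ∈ v.fiber F', (w.ramificationIndex F : ℤ) = Module.finrank F F' := by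
  obtain ⟨f, hfT, hfv, hfo⟩ := exists_only_pole v
  have hgT : Transcendental K (algebraMap F F' f) :=
    (transcendental_algebraMap_iff (algebraMap F F').injective).mpr hfT
  have h1 := RR.sum_ord_poles hfT {v} fun w => by
    rw [Finset.mem_singleton]
    exact ⟨fun h => h ▸ hfv, fun h => by_contra fun hne => (not_lt.mpr (hfo w hne)) h⟩
  rw [Finset.sum_singleton] at h1
  have h2 := RR.sum_ord_poles hgT (v.fiber F') fun w => by
    rw [Place.mem_fiber, w.ord_restrict f]
    have he : (0 : ℤ) < w.ramificationIndex F := by exact_mod_cast w.ramificationIndex_pos (F := F)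
    constructor
    · intro h
      rw [h]
      exact mul_neg_of_pos_of_neg he hfv
    · intro h
      by_contra hne
      exact not_le.mpr h (mul_nonneg he.le (hfo _ hne))
  rw [ndeg_algebraMap, Nat.cast_mul, ← h1] at h2
  refine mul_left_cancel₀ (show -v.ord f ≠ 0 by omega) ?_
  rw [← h2, Finset.mul_sum]
  refine Finset.sum_congr rfl fun w hw => ?_
  rw [w.ord_restrict f, Place.mem_fiber.mp hw]
  ring

theorem inertiaDeg_eq_one (w : Place K F') : w.inertiaDeg F = 1 := by
  have h := w.deg_restrict_mul_inertiaDeg (F := F)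
  rw [RR.deg_eq_one, RR.deg_eq_one, one_mul] at h
  exact h

theorem fundamentalIdentity : FundamentalIdentity K F F' where
  sum_ramificationIndex_mul_deg v := by
    rw [RR.deg_eq_one, Nat.cast_one, mul_one, ← sum_ramificationIndex v]
    exact Finset.sum_congr rfl fun w _ => by rw [RR.deg_eq_one, Nat.cast_one, mul_one]

/-- An element with no pole over `v` has minimal polynomial with coefficients finite at `v`. -/
theorem bd_minpoly_coeff {v : Place K F} {f : F'}
    (hf : ∀ w ∈ v.fiber F', RR.Bd w f 0) (i : ℕ) : RR.Bd v ((minpoly F f).coeff i) 0 := by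
  classical
  rcases eq_or_ne f 0 with rfl | hf0
  · rw [minpoly.zero]
    rcases eq_or_ne i 1 with rfl | hi
    · simpa [RR.bd_iff] using Or.inr (v.ord_one).ge
    · rw [Polynomial.coeff_X_of_ne_one hi]
      exact RR.Bd.zero
  have hfin : {w : Place K F' | w.ord f < 0}.Finite :=
    (RR.finite_ord_ne_zero hf0).subset fun w (hw : w.ord f < 0) => by
      show w.ord f ≠ 0
      omega
  set P := hfin.toFinset.image fun w => w.restrict F with hP
  have hvP : v ∉ P := by
    intro h
    obtain ⟨w, hw, hwv⟩ := Finset.mem_image.mp h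
    have := (RR.bd_iff_ord hf0).mp (hf w (Place.mem_fiber.mpr hwv))
    have hlt : w.ord f < 0 := hfin.mem_toFinset.mp hw
    omega
  obtain ⟨x, hxT, hxv, hxP⟩ := exists_coord v P hvP
  have hyT : Transcendental K (algebraMap F F' x) :=
    (transcendental_algebraMap_iff (algebraMap F F').injective).mpr hxT
  refine RR.with_chart hyT fun hp _ _ => ?_
  letI := RR.polyAlg (K := K) x
  haveI := RR.chart_tower_K (K := K) x
  haveI : IsScalarTower K[X] F F' := IsScalarTower.of_algebraMap_eq fun p => by
    rw [hp]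
    exact Polynomial.aeval_algebraMap_apply F' x p
  have hint : IsIntegral K[X] f := RR.Chart.mem_A_of_bd fun w hw => by
    rw [RR.Chart.Fin', show RR.Chart.xv K F' = algebraMap F F' x by simp [RR.Chart.xv, hp]] at hw
    rw [RR.bd_iff_ord hf0]
    by_contra hlt
    have hmem : w.restrict F ∈ P :=
      Finset.mem_image.mpr ⟨w, hfin.mem_toFinset.mpr (by show w.ord f < 0; omega), rfl⟩
    refine hxP _ hmem (RR.mem_iff_bd.mp ?_)
    rw [Place.mem_restrict_iff]
    exact RR.mem_iff_bd.mpr hw
  obtain ⟨p, hp1, hp2⟩ := hint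
  have hd : minpoly F f ∣ p.map (algebraMap K[X] F) := minpoly.dvd F f (by
    rw [Polynomial.aeval_map_algebraMap]; exact hp2)
  have hl := integralClosure.mem_lifts_of_monic_of_dvd_map F hp1
    (minpoly.monic (Algebra.IsIntegral.isIntegral f)) hd
  obtain ⟨a, ha⟩ := (Polynomial.lifts_iff_coeff_lifts _).mp hl i
  refine RR.Chart.bd_of_isIntegral (K := K) ?_ (ha ▸ a.2)
  show RR.Bd v (algebraMap K[X] F Polynomial.X) 0
  rw [show algebraMap K[X] F Polynomial.X = Polynomial.aeval x Polynomial.X from rfl,
    Polynomial.aeval_X]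
  exact hxv

omit [IsAlgClosed K] [CharZero K] [RR.FnField K F] [RR.FnField K F'] [IsScalarTower K F F']
  [HasPrincipalDivisors K F'] [Algebra.IsIntegral F F'] [Algebra K F] [Algebra K F'] [Field K] in
theorem norm_eq_coeff_zero (f : F') :
    Algebra.norm F f =
      ((-1) ^ (minpoly F f).natDegree * (minpoly F f).coeff 0) ^
        Module.finrank (IntermediateField.adjoin F {f}) F' := by
  have hf : IsIntegral F f := Algebra.IsIntegral.isIntegral f
  rw [Algebra.norm_eq_norm_adjoin F f]
  congr 1
  have h := Algebra.PowerBasis.norm_gen_eq_coeff_zero_minpoly (IntermediateField.adjoin.powerBasis hf)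
  rw [IntermediateField.adjoin.powerBasis_gen, IntermediateField.adjoin.powerBasis_dim,
    IntermediateField.minpoly_gen] at h
  exact h

omit [RR.FnField K F'] [IsScalarTower K F F'] [HasPrincipalDivisors K F'] [RR.FnField K F]
  [IsAlgClosed K] [CharZero K] [Algebra K F'] in
theorem ord_norm_eq (v : Place K F) {f : F'} (hf : f ≠ 0) :
    v.ord (Algebra.norm F f) =
      Module.finrank (IntermediateField.adjoin F {f}) F' * v.ord ((minpoly F f).coeff 0) := by
  have hc : (minpoly F f).coeff 0 ≠ 0 :=
    minpoly.coeff_zero_ne_zero (Algebra.IsIntegral.isIntegral f) hf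
  rw [norm_eq_coeff_zero, RR.ord_pow, v.ord_mul (pow_ne_zero _ (neg_ne_zero.mpr one_ne_zero)) hc,
    RR.ord_pow, RR.ord_neg, v.ord_one, mul_zero, zero_add]

theorem ord_norm_nonneg {v : Place K F} {f : F'} (hf0 : f ≠ 0)
    (hf : ∀ w ∈ v.fiber F', 0 ≤ w.ord f) : 0 ≤ v.ord (Algebra.norm F f) := by
  have hc : (minpoly F f).coeff 0 ≠ 0 :=
    minpoly.coeff_zero_ne_zero (Algebra.IsIntegral.isIntegral f) hf0
  have h := (RR.bd_iff_ord hc).mp
    (bd_minpoly_coeff (fun w hw => (RR.bd_iff_ord hf0).mpr (by have := hf w hw; omega)) 0)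
  rw [ord_norm_eq v hf0]
  exact mul_nonneg (by positivity) (by omega)

theorem ord_norm_pos {v : Place K F} {f : F'} (hf0 : f ≠ 0)
    (hf : ∀ w ∈ v.fiber F', 0 ≤ w.ord f) {w : Place K F'} (hw : w ∈ v.fiber F')
    (hpos : 0 < w.ord f) : 0 < v.ord (Algebra.norm F f) := by
  have hint : IsIntegral F f := Algebra.IsIntegral.isIntegral f
  have hc : (minpoly F f).coeff 0 ≠ 0 := minpoly.coeff_zero_ne_zero hint hf0
  have hb := bd_minpoly_coeff (f := f) (v := v)
    fun u hu => (RR.bd_iff_ord hf0).mpr (by have := hf u hu; omega)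
  rw [ord_norm_eq v hf0]
  refine mul_pos (by exact_mod_cast Module.finrank_pos) ?_
  have h0 := Polynomial.aeval_eq_sum_range (R := F) (p := minpoly F f) f
  rw [minpoly.aeval, Finset.sum_range_succ'] at h0
  have hfb : RR.Bd w f (-1) := (RR.bd_iff_ord hf0).mpr (by omega)
  have hlift : ∀ a : F, RR.Bd v a 0 → RR.Bd w (algebraMap F F' a) 0 := by
    intro a ha
    rw [← RR.mem_iff_bd, ← Place.mem_restrict_iff (F := F), Place.mem_fiber.mp hw]
    exact RR.mem_iff_bd.mpr ha
  have hs : RR.Bd w (∑ i ∈ Finset.range (minpoly F f).natDegree,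
      (minpoly F f).coeff (i + 1) • f ^ (i + 1)) (-1) := RR.Bd.sum _ _ fun i _ => by
    rw [Algebra.smul_def]
    have := (hlift _ (hb (i + 1))).mul (hfb.pow (i + 1))
    refine this.mono ?_
    push_cast
    omega
  rw [pow_zero, ← Algebra.algebraMap_eq_smul_one] at h0
  have h1 : RR.Bd w (algebraMap F F' ((minpoly F f).coeff 0)) (-1) := by
    rw [show algebraMap F F' ((minpoly F f).coeff 0) = -∑ i ∈ Finset.range (minpoly F f).natDegree,
      (minpoly F f).coeff (i + 1) • f ^ (i + 1) from eq_neg_of_add_eq_zero_right h0.symm]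
    exact hs.neg
  rw [RR.bd_iff_ord (by simpa using hc), w.ord_restrict, Place.mem_fiber.mp hw] at h1
  by_contra hle
  have : (w.ramificationIndex F : ℤ) * v.ord ((minpoly F f).coeff 0) ≤ 0 :=
    mul_nonpos_of_nonneg_of_nonpos (by positivity) (not_lt.mp hle)
  omega

omit [IsAlgClosed K] [CharZero K] [RR.FnField K F] [RR.FnField K F'] [IsScalarTower K F F']
  [HasPrincipalDivisors K F'] [Algebra.IsIntegral F F'] [Algebra K F'] in
theorem ord_norm_mul (v : Place K F) {f g : F'} (hf : f ≠ 0) (hg : g ≠ 0) :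
    v.ord (Algebra.norm F (f * g)) = v.ord (Algebra.norm F f) + v.ord (Algebra.norm F g) := by
  rw [map_mul, v.ord_mul (Algebra.norm_ne_zero_iff.mpr hf) (Algebra.norm_ne_zero_iff.mpr hg)]

theorem ord_norm_eq_zero {v : Place K F} {f : F'} (hf0 : f ≠ 0)
    (hf : ∀ w ∈ v.fiber F', w.ord f = 0) : v.ord (Algebra.norm F f) = 0 := by
  have h1 := ord_norm_nonneg hf0 fun w hw => (hf w hw).ge
  have h2 := ord_norm_nonneg (inv_ne_zero hf0) (v := v) fun w hw => by
    rw [w.ord_inv, hf w hw]; simp
  have h3 := ord_norm_mul v hf0 (inv_ne_zero hf0)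
  rw [mul_inv_cancel₀ hf0, map_one, v.ord_one] at h3
  omega

omit [IsAlgClosed K] [CharZero K] [RR.FnField K F] [RR.FnField K F'] [IsScalarTower K F F']
  [HasPrincipalDivisors K F'] [Algebra.IsIntegral F F'] [Algebra K F'] in
theorem ord_norm_inv (v : Place K F) {f : F'} (hf : f ≠ 0) :
    v.ord (Algebra.norm F f⁻¹) = -v.ord (Algebra.norm F f) := by
  have h3 := ord_norm_mul v hf (inv_ne_zero hf)
  rw [mul_inv_cancel₀ hf, map_one, v.ord_one] at h3
  omega

omit [IsAlgClosed K] [CharZero K] [RR.FnField K F] [RR.FnField K F'] [IsScalarTower K F F']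
  [HasPrincipalDivisors K F'] [Algebra.IsIntegral F F'] [Algebra K F'] in
theorem ord_norm_zpow (v : Place K F) {f : F'} (hf : f ≠ 0) (n : ℤ) :
    v.ord (Algebra.norm F (f ^ n)) = n * v.ord (Algebra.norm F f) := by
  rcases n with n | n
  · simp [RR.ord_pow]
  · rw [zpow_negSucc, ord_norm_inv v (pow_ne_zero _ hf), map_pow, RR.ord_pow, Int.negSucc_eq]
    push_cast
    ring

omit [IsAlgClosed K] [CharZero K] [RR.FnField K F] [RR.FnField K F'] [IsScalarTower K F F']
  [HasPrincipalDivisors K F'] [Algebra.IsIntegral F F'] [Algebra K F'] in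
theorem ord_norm_prod (v : Place K F) {ι : Type*} (s : Finset ι) (f : ι → F')
    (hf : ∀ i ∈ s, f i ≠ 0) :
    v.ord (Algebra.norm F (∏ i ∈ s, f i)) = ∑ i ∈ s, v.ord (Algebra.norm F (f i)) := by
  rw [map_prod, RR.ord_prod v s _ fun i hi => Algebra.norm_ne_zero_iff.mpr (hf i hi)]

/-- the order of a norm at `v` is the sum of the orders over `v` -/
theorem ord_norm (v : Place K F) {f : F'} (hf : f ≠ 0) :
    v.ord (Algebra.norm F f) = ∑ w ∈ v.fiber F', w.ord f := by
  classical
  obtain ⟨x, hxT, hxv⟩ := RR.exists_chart v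
  have hyT : Transcendental K (algebraMap F F' x) :=
    (transcendental_algebraMap_iff (algebraMap F F').injective).mpr hxT
  have hS : ∀ w ∈ v.fiber F', RR.Bd w (algebraMap F F' x) 0 := fun w hw => by
    rw [← RR.mem_iff_bd, ← Place.mem_restrict_iff (F := F), Place.mem_fiber.mp hw]
    exact RR.mem_iff_bd.mpr hxv
  choose π hπ0 hπ using fun w => exists_unif hyT (v.fiber F') hS w
  have key : ∀ g : F', g ≠ 0 →
      v.ord (Algebra.norm F g) = ∑ w ∈ v.fiber F', w.ord g * v.ord (Algebra.norm F (π w)) := by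
    intro g hg
    set P := ∏ w ∈ v.fiber F', π w ^ (w.ord g) with hP
    have hne : ∀ w ∈ v.fiber F', π w ^ (w.ord g) ≠ 0 := fun w _ => zpow_ne_zero _ (hπ0 w)
    have hP0 : P ≠ 0 := Finset.prod_ne_zero_iff.mpr hne
    have hordP : ∀ u ∈ v.fiber F', u.ord P = u.ord g := by
      intro u hu
      rw [RR.ord_prod u _ _ hne]
      rw [Finset.sum_eq_single_of_mem u hu fun w _ hwu => by
        rw [u.ord_zpow, (hπ w u hu).2 (Ne.symm hwu), mul_zero]]
      rw [u.ord_zpow, (hπ u u hu).1 rfl, mul_one]
    have hu : v.ord (Algebra.norm F (g * P⁻¹)) = 0 :=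
      ord_norm_eq_zero (mul_ne_zero hg (inv_ne_zero hP0)) fun u hu => by
        rw [u.ord_mul hg (inv_ne_zero hP0), u.ord_inv, hordP u hu, add_neg_cancel]
    rw [ord_norm_mul v hg (inv_ne_zero hP0), ord_norm_inv v hP0, ord_norm_prod v _ _ hne] at hu
    have : ∑ w ∈ v.fiber F', v.ord (Algebra.norm F (π w ^ (w.ord g))) =
        ∑ w ∈ v.fiber F', w.ord g * v.ord (Algebra.norm F (π w)) :=
      Finset.sum_congr rfl fun w _ => ord_norm_zpow v (hπ0 w) _
    omega
  have hc1 : ∀ w ∈ v.fiber F', 1 ≤ v.ord (Algebra.norm F (π w)) := by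
    intro w hw
    have h0 : ∀ u ∈ v.fiber F', 0 ≤ u.ord (π w) := fun u hu => by
      rcases eq_or_ne u w with h | h
      · rw [(hπ w u hu).1 h]; norm_num
      · rw [(hπ w u hu).2 h]
    exact ord_norm_pos (hπ0 w) h0 hw (by rw [(hπ w w hw).1 rfl]; norm_num)
  obtain ⟨t, ht⟩ : ∃ t : v.toValuationSubring, Irreducible t :=
    IsDiscreteValuationRing.exists_irreducible v.toValuationSubring
  have ht1 : v.ord (t : F) = 1 := v.ord_coe_irreducible ht
  have ht0 : (t : F) ≠ 0 := by simpa [ne_eq, ZeroMemClass.coe_eq_zero] using ht.ne_zero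
  have hk := key (algebraMap F F' (t : F)) (by simpa using ht0)
  rw [Algebra.norm_algebraMap, RR.ord_pow, ht1, mul_one, ← sum_ramificationIndex v] at hk
  have hc : ∀ w ∈ v.fiber F', v.ord (Algebra.norm F (π w)) = 1 := by
    intro w hw
    have hz : ∀ u ∈ v.fiber F', u.ord (algebraMap F F' (t : F)) = u.ramificationIndex F :=
      fun u hu => by rw [u.ord_restrict, Place.mem_fiber.mp hu, ht1, mul_one]
    have hk2 : ∑ u ∈ v.fiber F', (u.ramificationIndex F : ℤ) * v.ord (Algebra.norm F (π u)) =
        ∑ u ∈ v.fiber F', (u.ramificationIndex F : ℤ) :=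
      (Finset.sum_congr rfl fun u hu => by rw [hz u hu]).trans hk.symm
    have hsum : ∑ u ∈ v.fiber F',
        (u.ramificationIndex F : ℤ) * (v.ord (Algebra.norm F (π u)) - 1) = 0 := by
      simp only [mul_sub, mul_one, Finset.sum_sub_distrib]
      omega
    have := (Finset.sum_eq_zero_iff_of_nonneg fun u hu =>
      mul_nonneg (by positivity) (by have := hc1 u hu; omega)).mp hsum w hw
    have he := w.ramificationIndex_pos (F := F)
    rcases mul_eq_zero.mp this with h | h <;> omega
  rw [key f hf]
  exact Finset.sum_congr rfl fun w hw => by rw [hc w hw, mul_one]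

theorem normFormula : Divisor.PushforwardNormFormula K F F' := by
  classical
  intro f hf D hD v
  rw [Divisor.pushforward_apply, ord_norm v hf, ← Finset.sum_filter]
  rw [← Finset.sum_subset (s₁ := D.support.filter fun w => w.restrict F = v)
    (s₂ := v.fiber F') (fun w hw => Place.mem_fiber.mpr (Finset.mem_filter.mp hw).2)]
  · exact Finset.sum_congr rfl fun w _ => by rw [inertiaDeg_eq_one, Nat.cast_one, mul_one, hD]
  · intro w hw hns
    rw [← hD]
    by_contra h
    exact hns (Finset.mem_filter.mpr ⟨Finsupp.mem_support_iff.mpr h, Place.mem_fiber.mp hw⟩)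

end Ext

section Along

variable {K F F' : Type*} [Field K] [Field F] [Field F'] [Algebra K F] [Algebra K F']
  [IsAlgClosed K] [CharZero K] [RR.FnField K F] [RR.FnField K F']

omit [IsAlgClosed K] [CharZero K] in
theorem finiteAlong (φ : F →ₐ[K] F') : FiniteAlong K φ :=
  letI := algebraAlong φ
  haveI := isScalarTower_along φ
  finite_ext K

omit [IsAlgClosed K] [CharZero K] in
theorem isIntegralAlong (φ : F →ₐ[K] F') : φ.toRingHom.IsIntegral :=
  letI := algebraAlong φ
  haveI : Module.Finite F F' := finiteAlong φ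
  (Algebra.IsIntegral.of_finite F F').isIntegral

theorem fundamentalIdentityAlong (φ : F →ₐ[K] F') (hφ : φ.toRingHom.IsIntegral)
    [HasPrincipalDivisors K F'] : FundamentalIdentityAlong K φ hφ :=
  letI := algebraAlong φ
  haveI := isScalarTower_along φ
  haveI := isIntegral_along φ hφ
  haveI : Module.Finite F F' := finiteAlong φ
  fundamentalIdentity

theorem normFormulaAlong (φ : F →ₐ[K] F') (hfin : FiniteAlong K φ) :
    NormFormulaAlong K φ hfin :=
  letI := algebraAlong φ
  haveI := isScalarTower_along φ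
  haveI : Module.Finite F F' := hfin
  haveI : Algebra.IsIntegral F F' := Algebra.IsIntegral.of_finite F F'
  haveI : HasPrincipalDivisors K F' := RR.hasPrincipalDivisors
  normFormula

theorem inertiaDegAlong_eq_one (φ : F →ₐ[K] F') (hφ : φ.toRingHom.IsIntegral) (w : Place K F') :
    w.inertiaDegAlong φ hφ = 1 := by
  letI := algebraAlong φ
  haveI := isScalarTower_along φ
  haveI := isIntegral_along φ hφ
  haveI : Module.Finite F F' := finiteAlong φ
  haveI : HasPrincipalDivisors K F' := RR.hasPrincipalDivisors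
  exact inertiaDeg_eq_one w

end Along

end FLTAgent.HeckeJ

end
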