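import Fermat.Agent.HeckeJ.AlongAux
import Fermat.Agent.ModFun.FunctionField

/-!
Fields of definition: functions, places and divisor classes of `X₀(N)` over `ℚ̄` are fixed by the
automorphisms fixing a number field.
-/

set_option autoImplicit false

noncomputable section

open ModularCurve AlgebraicCurve

namespace FLTAgent.HeckeJ

local notation "Kb" => AlgebraicClosure ℚ

/-- `P σ` holds as soon as `σ` fixes some number field -/
def HasLevel (P : (Kb ≃ₐ[ℚ] Kb) → Prop) : Prop :=
  ∃ L : IntermediateField ℚ Kb, FiniteDimensional ℚ L ∧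
    ∀ σ : Kb ≃ₐ[ℚ] Kb, (∀ y ∈ L, σ y = y) → P σ

theorem HasLevel.of_forall {P : (Kb ≃ₐ[ℚ] Kb) → Prop} (h : ∀ σ, P σ) : HasLevel P :=
  ⟨⊥, inferInstance, fun σ _ => h σ⟩

theorem HasLevel.mono {P Q : (Kb ≃ₐ[ℚ] Kb) → Prop} (h : HasLevel P) (hPQ : ∀ σ, P σ → Q σ) :
    HasLevel Q :=
  let ⟨L, hL, hP⟩ := h
  ⟨L, hL, fun σ hσ => hPQ σ (hP σ hσ)⟩

theorem HasLevel.and {P Q : (Kb ≃ₐ[ℚ] Kb) → Prop} (hP : HasLevel P) (hQ : HasLevel Q) :
    HasLevel fun σ => P σ ∧ Q σ := by
  obtain ⟨L, hL, hP⟩ := hP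
  obtain ⟨M, hM, hQ⟩ := hQ
  haveI := hL
  haveI := hM
  exact ⟨L ⊔ M, IntermediateField.finiteDimensional_sup L M, fun σ hσ =>
    ⟨hP σ fun y hy => hσ y ((le_sup_left : L ≤ L ⊔ M) hy),
      hQ σ fun y hy => hσ y ((le_sup_right : M ≤ L ⊔ M) hy)⟩⟩

theorem hasLevel_const (a : Kb) : HasLevel fun σ => σ a = a := by
  haveI : Algebra.IsAlgebraic ℚ Kb := AlgebraicClosure.isAlgebraic ℚ
  exact ⟨IntermediateField.adjoin ℚ {a},
    IntermediateField.adjoin.finiteDimensional (Algebra.IsAlgebraic.isAlgebraic a).isIntegral,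
    fun σ hσ => hσ a (IntermediateField.subset_adjoin ℚ _ rfl)⟩

variable {N : ℕ} [NeZero N]

theorem smul_jBar (σ : Kb ≃ₐ[ℚ] Kb) :
    arithmeticGalois (modularFunctionFieldFull N) σ • ModFun.jBar N = ModFun.jBar N :=
  Subtype.ext (coeffMap_coeffEmb σ _)

theorem smul_jNBar (σ : Kb ≃ₐ[ℚ] Kb) :
    arithmeticGalois (modularFunctionFieldFull N) σ • ModFun.jNBar N = ModFun.jNBar N :=
  Subtype.ext (coeffMap_coeffEmb σ _)

theorem hasLevel_fn (f : modularFunctionFieldBar N) :
    HasLevel fun σ => arithmeticGalois (modularFunctionFieldFull N) σ • f = f := by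
  have hf : f ∈ IntermediateField.adjoin Kb
      ({ModFun.jBar N, ModFun.jNBar N} : Set (modularFunctionFieldBar N)) := by
    rw [ModFun.generated_bar]
    exact IntermediateField.mem_top
  induction hf using IntermediateField.adjoin_induction with
  | mem y hy =>
    rcases hy with rfl | rfl
    · exact .of_forall smul_jBar
    · exact .of_forall smul_jNBar
  | algebraMap a =>
    refine (hasLevel_const a).mono fun σ h => ?_
    rw [SemilinearAut.smul_algebraMap, baseAut_arithmeticGalois]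
    exact congrArg _ h
  | add x y _ _ hx hy => exact (hx.and hy).mono fun σ h => by rw [smul_add, h.1, h.2]
  | inv x _ hx => exact hx.mono fun σ h => by rw [smul_inv'', h]
  | mul x y _ _ hx hy => exact (hx.and hy).mono fun σ h => by rw [smul_mul', h.1, h.2]

theorem hasLevel_place (w : Place Kb (modularFunctionFieldBar N)) :
    HasLevel fun σ => arithmeticGalois (modularFunctionFieldFull N) σ • w = w := by
  obtain ⟨f, hf⟩ : ∃ f : modularFunctionFieldBar N, 0 < w.ord f := by
    by_cases h : w.ord (ModFun.jBar N) < 0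
    · exact ⟨(ModFun.jBar N)⁻¹, by rw [w.ord_inv]; omega⟩
    · obtain ⟨c, hc | hc⟩ := RR.exists_const_ord_pos (not_lt.mp h)
      · exact absurd (hc ▸ isAlgebraic_algebraMap c) (ModFun.transcendental_jBar N)
      · exact ⟨_, hc⟩
  have hfT : Transcendental Kb f := RR.transcendental_of_ord_ne_zero (v := w) (by omega)
  have hS : ∀ u ∈ RR.zeros (K := Kb) f, RR.Bd u f 0 := fun u hu => by
    have := RR.mem_zeros.mp hu
    rw [RR.bd_iff]
    exact Or.inr (by omega)
  obtain ⟨π, -, hπ⟩ := exists_unif hfT _ hS w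
  have hw : w ∈ RR.zeros (K := Kb) f := RR.mem_zeros.mpr hf
  refine ((hasLevel_fn f).and (hasLevel_fn π)).mono fun σ h => ?_
  set g := arithmeticGalois (modularFunctionFieldFull N) σ
  have h1 : (g • w).ord f = w.ord f := by
    conv_lhs => rw [← h.1]
    exact SemilinearAut.ord_smul g w f
  have h2 : (g • w).ord π = w.ord π := by
    conv_lhs => rw [← h.2]
    exact SemilinearAut.ord_smul g w π
  have hmem : g • w ∈ RR.zeros (K := Kb) f := RR.mem_zeros.mpr (h1 ▸ hf)
  by_contra hne
  rw [(hπ _ hmem).2 hne, (hπ w hw).1 rfl] at h2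
  omega

theorem hasLevel_divisor (D : Divisor Kb (modularFunctionFieldBar N)) :
    HasLevel fun σ => arithmeticGalois (modularFunctionFieldFull N) σ • D = D := by
  induction D using Finsupp.induction with
  | zero => exact .of_forall fun σ => smul_zero _
  | single_add w n D _ _ ih =>
    exact ((hasLevel_place w).and ih).mono fun σ h => by
      rw [smul_add, SemilinearAut.smul_single, h.1, h.2]

theorem exists_level' (x : JZero N) :
    ∃ L : IntermediateField ℚ Kb, FiniteDimensional ℚ L ∧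
      ∀ σ : Kb ≃ₐ[ℚ] Kb, (∀ y ∈ L, σ y = y) → σ • x = x := by
  obtain ⟨D, rfl⟩ := Pic0.mk_surjective x
  refine (hasLevel_divisor (D : Divisor Kb (modularFunctionFieldBar N))).mono fun σ h => ?_
  rw [galois_smul_pic0_def, SemilinearAut.pic0_smul_mk]
  exact congrArg Pic0.mk (Subtype.ext h)

end FLTAgent.HeckeJ

end
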