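import Fermat.Agent.HeckeJ.Galois
import Fermat.Agent.HeckeJ.Level

/-!
Area HeckeJ (owner: helper9): inputs for the Hecke correspondences on `X₀(N)` over `ℚ̄` at every
level, Galois equivariance of the Hecke operators, and the field of definition of points of `J₀(N)`.
-/

set_option autoImplicit false

noncomputable section

open ModularCurve

namespace FLTAgent.HeckeJ

/-- the correspondence inputs hold for every `l` (prime or not, dividing the level or not) -/
theorem heckeInputsAlong (N l : ℕ) [NeZero N] [NeZero l] :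
    HeckeInputsAlong (AlgebraicClosure ℚ) N l :=
  heckeInputsAlong' N l

theorem smul_hecke (N : ℕ) [NeZero N] (σ : AlgebraicClosure ℚ ≃ₐ[ℚ] AlgebraicClosure ℚ)
    (ℓ : Nat.Primes) (x : JZero N) :
    σ • heckeOperatorBar N ℓ x = heckeOperatorBar N ℓ (σ • x) :=
  smul_hecke' N σ ℓ x

theorem exists_level (N : ℕ) [NeZero N] (x : JZero N) :
    ∃ L : IntermediateField ℚ (AlgebraicClosure ℚ), FiniteDimensional ℚ L ∧
      ∀ σ : AlgebraicClosure ℚ ≃ₐ[ℚ] AlgebraicClosure ℚ, (∀ y ∈ L, σ y = y) → σ • x = x :=
  exists_level' x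

end FLTAgent.HeckeJ

end
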