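import Fermat.Agent.HeckeJ.Inputs
import Fermat.Prelude.Thm_ModularCurve_coeffMap_qExpand

/-!
Semilinear automorphisms that intertwine two embeddings commute with the correspondence; in
particular the arithmetic Galois action commutes with all Hecke operators on `J₀(N)`.
-/

set_option autoImplicit false

noncomputable section

open AlgebraicCurve
open scoped Pointwise

namespace FLTAgent.HeckeJ

section Generic

variable {K F F' : Type*} [Field K] [Field F] [Field F'] [Algebra K F] [Algebra K F']

theorem restrictAlong_smul (φ : F →ₐ[K] F') (hφ : φ.toRingHom.IsIntegral) {g : SemilinearAut K F}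
    {g' : SemilinearAut K F'} (h : SemilinearAut.IntertwinesAlong φ.toRingHom g g')
    (w : Place K F') : (g' • w).restrictAlong φ hφ = g • w.restrictAlong φ hφ := by
  refine Place.ext ?_
  ext f
  rw [SemilinearAut.smul_toValuationSubring, ValuationSubring.mem_pointwise_smul_iff_inv_smul_mem]
  show φ.toRingHom f ∈ g' • w.toValuationSubring ↔ φ.toRingHom (g⁻¹ • f) ∈ w.toValuationSubring
  rw [ValuationSubring.mem_pointwise_smul_iff_inv_smul_mem, h.inv f]

theorem ramificationIndexAlong_smul (φ : F →ₐ[K] F') (hφ : φ.toRingHom.IsIntegral)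
    {g : SemilinearAut K F} {g' : SemilinearAut K F'}
    (h : SemilinearAut.IntertwinesAlong φ.toRingHom g g') (w : Place K F') :
    (g' • w).ramificationIndexAlong φ = w.ramificationIndexAlong φ := by
  obtain ⟨t, ht⟩ := IsDiscreteValuationRing.exists_irreducible
    (w.restrictAlong φ hφ).toValuationSubring
  have h1 : (w.restrictAlong φ hφ).ord (t : F) = 1 :=
    (w.restrictAlong φ hφ).ord_coe_irreducible ht
  have h2 := (g' • w).ord_restrictAlong φ hφ (g • (t : F))
  rw [restrictAlong_smul φ hφ h, SemilinearAut.ord_smul, h1, mul_one,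
    show φ (g • (t : F)) = g' • φ (t : F) from (h (t : F)).symm, SemilinearAut.ord_smul,
    w.ord_restrictAlong φ hφ, h1, mul_one] at h2
  exact_mod_cast h2.symm

variable [IsAlgClosed K] [CharZero K] [RR.FnField K F] [RR.FnField K F']

theorem pushforwardAlong_smul (ψ : F →ₐ[K] F') (hψ : ψ.toRingHom.IsIntegral)
    {g : SemilinearAut K F} {g' : SemilinearAut K F'}
    (h : SemilinearAut.IntertwinesAlong ψ.toRingHom g g') (D : Divisor K F') :
    Divisor.pushforwardAlong ψ hψ (g' • D) = g • Divisor.pushforwardAlong ψ hψ D := by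
  induction D using Finsupp.induction with
  | zero => simp
  | single_add w n D _ _ ih =>
    rw [smul_add, map_add, map_add, smul_add, ih, SemilinearAut.smul_single,
      Divisor.pushforwardAlong_single, Divisor.pushforwardAlong_single,
      SemilinearAut.smul_single, inertiaDegAlong_eq_one, inertiaDegAlong_eq_one,
      restrictAlong_smul ψ hψ h]

omit [IsAlgClosed K] [CharZero K] [RR.FnField K F] [RR.FnField K F'] in
theorem pullbackAlong_smul [HasPrincipalDivisors K F'] (φ : F →ₐ[K] F')
    (hφ : φ.toRingHom.IsIntegral) {g : SemilinearAut K F} {g' : SemilinearAut K F'}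
    (h : SemilinearAut.IntertwinesAlong φ.toRingHom g g') (D : Divisor K F) :
    Divisor.pullbackAlong φ hφ (g • D) = g' • Divisor.pullbackAlong φ hφ D := by
  refine Finsupp.ext fun w => ?_
  rw [SemilinearAut.divisor_smul_apply, Divisor.pullbackAlong_apply,
    Divisor.pullbackAlong_apply, SemilinearAut.divisor_smul_apply,
    restrictAlong_smul φ hφ h.inv, ramificationIndexAlong_smul φ hφ h.inv]

theorem pic0_correspondence_smul [HasPrincipalDivisors K F'] (φ ψ : F →ₐ[K] F')
    (hφ : φ.toRingHom.IsIntegral) (hψ : ψ.toRingHom.IsIntegral)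
    (hFI : FundamentalIdentityAlong K φ hφ) (hfin : FiniteAlong K ψ)
    (hN : NormFormulaAlong K ψ hfin) {g : SemilinearAut K F} {g' : SemilinearAut K F'}
    (h₁ : SemilinearAut.IntertwinesAlong φ.toRingHom g g')
    (h₂ : SemilinearAut.IntertwinesAlong ψ.toRingHom g g') (x : Pic0 K F) :
    g • Pic0.correspondence φ ψ hφ hψ hFI hfin hN x =
      Pic0.correspondence φ ψ hφ hψ hFI hfin hN (g • x) := by
  obtain ⟨D, rfl⟩ := Pic0.mk_surjective x
  rw [Pic0.correspondence_mk, SemilinearAut.pic0_smul_mk, SemilinearAut.pic0_smul_mk,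
    Pic0.correspondence_mk]
  refine congrArg Pic0.mk (Subtype.ext ?_)
  simp only [SemilinearAut.coe_degZeroSMulHom, Pic0.coe_degZeroCorrespondence,
    Divisor.correspondence_apply]
  rw [pullbackAlong_smul φ hφ h₁, pushforwardAlong_smul ψ hψ h₂]

end Generic

section Modular

open ModularCurve

local notation "Kb" => AlgebraicClosure ℚ

theorem intertwines_heckeAlphaBar (N l : ℕ) [NeZero N] [NeZero l] (σ : Kb ≃ₐ[ℚ] Kb) :
    SemilinearAut.IntertwinesAlong (heckeAlphaBar Kb N l).toRingHom
      (arithmeticGalois (modularFunctionFieldFull N) σ)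
      (arithmeticGalois (modularFunctionFieldFull (N * l)) σ) := fun x => by
  refine Subtype.ext ?_
  show _ = ((heckeAlphaBar Kb N l (arithmeticGalois (modularFunctionFieldFull N) σ • x) :
    laurentBaseChange Kb (modularFunctionFieldFull (N * l))) : LaurentSeries Kb)
  rw [coe_heckeAlphaBar, coe_arithmeticGalois_smul, coe_arithmeticGalois_smul]
  exact congrArg _ (coe_heckeAlphaBar N l x)

theorem intertwines_heckeBetaBar (N l : ℕ) [NeZero N] [NeZero l] (σ : Kb ≃ₐ[ℚ] Kb) :
    SemilinearAut.IntertwinesAlong (heckeBetaBar Kb N l).toRingHom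
      (arithmeticGalois (modularFunctionFieldFull N) σ)
      (arithmeticGalois (modularFunctionFieldFull (N * l)) σ) := fun x => by
  refine Subtype.ext ?_
  show _ = ((heckeBetaBar Kb N l (arithmeticGalois (modularFunctionFieldFull N) σ • x) :
    laurentBaseChange Kb (modularFunctionFieldFull (N * l))) : LaurentSeries Kb)
  rw [coe_heckeBetaBar, coe_arithmeticGalois_smul, coe_arithmeticGalois_smul,
    ← coeffMap_qExpand]
  exact congrArg _ (coe_heckeBetaBar N l x)

theorem smul_heckeOperatorAlong (N l : ℕ) [NeZero N] [NeZero l] (σ : Kb ≃ₐ[ℚ] Kb) (x : JZero N) :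
    σ • heckeOperatorAlong Kb N l x = heckeOperatorAlong Kb N l (σ • x) := by
  haveI := hasPrincipalDivisors_bar (N * l)
  rw [heckeOperatorAlong_eq (heckeAlphaBarIntegral N l) (heckeBetaBarIntegral N l)
    (fundamentalIdentityAlong _ _) (finiteAlong _) (normFormulaAlong _ _),
    galois_smul_pic0_def, galois_smul_pic0_def]
  exact pic0_correspondence_smul _ _ _ _ _ _ _
    (intertwines_heckeBetaBar N l σ) (intertwines_heckeAlphaBar N l σ) x

theorem smul_hecke' (N : ℕ) [NeZero N] (σ : Kb ≃ₐ[ℚ] Kb) (ℓ : Nat.Primes) (x : JZero N) :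
    σ • heckeOperatorBar N ℓ x = heckeOperatorBar N ℓ (σ • x) := by
  haveI : NeZero (ℓ : ℕ) := ⟨ℓ.2.ne_zero⟩
  exact smul_heckeOperatorAlong N ℓ σ x

end Modular

end FLTAgent.HeckeJ

end
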