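import Fermat.Agent.HeckeJ.Along
import Fermat.Agent.ModFun.FunctionField
import Fermat.Prelude.Def_ModularCurve_HeckeModule

/-!
The correspondence inputs for the Hecke operators on `X₀(N)` over `ℚ̄`, for every index.
-/

set_option autoImplicit false

noncomputable section

open ModularCurve AlgebraicCurve

namespace FLTAgent.HeckeJ

local notation "Kb" => AlgebraicClosure ℚ

theorem hasPrincipalDivisors_bar (N : ℕ) [NeZero N] :
    HasPrincipalDivisors Kb (modularFunctionFieldBar N) :=
  RR.hasPrincipalDivisors

theorem heckeAlphaBarIntegral (N l : ℕ) [NeZero N] [NeZero l] : HeckeAlphaBarIntegral Kb N l :=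
  isIntegralAlong _

theorem heckeBetaBarIntegral (N l : ℕ) [NeZero N] [NeZero l] : HeckeBetaBarIntegral Kb N l :=
  isIntegralAlong _

/-- the correspondence inputs hold for every `l` (prime or not, dividing the level or not) -/
theorem heckeInputsAlong' (N l : ℕ) [NeZero N] [NeZero l] : HeckeInputsAlong Kb N l := by
  haveI := hasPrincipalDivisors_bar (N * l)
  exact heckeInputsAlong_intro (heckeAlphaBarIntegral N l) (heckeBetaBarIntegral N l)
    (fundamentalIdentityAlong _ _) (finiteAlong _) (normFormulaAlong _ _)

end FLTAgent.HeckeJ

end
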